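import Fermat.Agent.S17.H.FibDef

/-!
# S17, part H, node X1-g: the construction of `ξ`, `η`, `η_β`

`ξ(T') = det (a M_c(T') - c M_a(T')) ∈ A[T']` vanishes at `T' = t` (Cayley-Hamilton), so
`ξ = (T' - t) η`; and `ξ(β) = ∏_{Q | β} (c(Q) a - a(Q) c)`.  (task S17-H-X1-g, helper171)
-/

set_option autoImplicit false

noncomputable section

open scoped Classical

namespace Fermat.Agent.S17.H

open Polynomial

variable {A : Type} [CommRing A] [Algebra Qb A] (C : WCurve A)

/-- the matrix `a M_c(T') - c M_a(T')` over `A[T']`. -/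
def Ymat (a c : A) : Matrix (Fin C.d) (Fin C.d) A[X] := fun i j =>
  Polynomial.C a * (mulMat C c i j).map (algebraMap Qb A) -
    Polynomial.C c * (mulMat C a i j).map (algebraMap Qb A)

def xi (a c : A) : A[X] := (Ymat C a c).det

/-- evaluation of `ξ` at any element of `A`. -/
theorem xi_eval_eq_det (a c x : A) : (xi C a c).eval x =
    (Matrix.of fun i j : Fin C.d =>
      a * aeval x (mulMat C c i j) - c * aeval x (mulMat C a i j)).det := by
  have h := RingHom.map_det (Polynomial.evalRingHom x) (Ymat C a c)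
  rw [Polynomial.coe_evalRingHom] at h
  rw [xi, h]
  congr 1
  ext i j
  simp [Ymat, Polynomial.eval_map_algebraMap]

/-- Cayley-Hamilton. -/
theorem xi_eval_t (a c : A) : (xi C a c).eval C.t = 0 := by
  have := apery_isDomain C
  rw [xi_eval_eq_det, ← Matrix.exists_vecMul_eq_zero_iff]
  refine ⟨fun i => C.b (ap C i), fun h => ?_, ?_⟩
  · exact apery_b_ne_zero C _ (congrFun h ⟨0, d_pos C⟩)
  · funext j
    have hc := mul_b_ap_eq C c j
    have ha := mul_b_ap_eq C a j
    simp only [Matrix.vecMul, dotProduct, Matrix.of_apply, Pi.zero_apply]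
    have e : ∀ i, C.b (ap C i) *
        (a * aeval C.t (mulMat C c i j) - c * aeval C.t (mulMat C a i j)) =
        a * (aeval C.t (mulMat C c i j) * C.b (ap C i)) -
          c * (aeval C.t (mulMat C a i j) * C.b (ap C i)) := fun i => by ring
    rw [Finset.sum_congr rfl fun i _ => e i, Finset.sum_sub_distrib, ← Finset.mul_sum,
      ← Finset.mul_sum, ← hc, ← ha]
    ring

def eta (a c : A) : A[X] := xi C a c /ₘ (X - Polynomial.C C.t)

theorem xi_eq (a c : A) : xi C a c = (X - Polynomial.C C.t) * eta C a c :=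
  (Polynomial.mul_divByMonic_eq_iff_isRoot.2 (xi_eval_t C a c)).symm

/-- `η_β`. -/
def etaAt (a c : A) (β : Qb) : A := (eta C a c).eval (algebraMap Qb A β)

/-- the determinant `det (s M_c(β) - s' M_a(β))` as a product over the fibre. -/
theorem det_pencil_eq_prod (a c : A) (β s s' : Qb) :
    (Matrix.of fun i j : Fin C.d =>
      s * (mulMat C c i j).eval β - s' * (mulMat C a i j).eval β).det =
    ((Fib C β).map fun Q => Q c * s - Q a * s').prod := by
  have h1 := eval_Nm C β (s • c - s' • a)
  have h2 := RingHom.map_det (Polynomial.evalRingHom β) (mulMat C (s • c - s' • a))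
  rw [Polynomial.coe_evalRingHom] at h2
  rw [Nm, h2] at h1
  have e1 : (Polynomial.evalRingHom β).mapMatrix (mulMat C (s • c - s' • a)) =
      Matrix.of fun i j : Fin C.d =>
        s * (mulMat C c i j).eval β - s' * (mulMat C a i j).eval β := by
    ext i j
    simp [mulMat_sub, mulMat_smul]
  rw [e1] at h1
  rw [h1]
  congr 1
  refine Multiset.map_congr rfl fun Q _ => ?_
  rw [map_sub, map_smul, map_smul, smul_eq_mul, smul_eq_mul]
  ring

/-- `ξ_β = ∏_{Q | β} (c(Q) a - a(Q) c)`. -/
theorem xi_eval (a c : A) (β : Qb) : (xi C a c).eval (algebraMap Qb A β) =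
    ((Fib C β).map fun Q => Q c • a - Q a • c).prod := by
  let Ψ : MvPolynomial (Fin 2) Qb := (Matrix.of fun i j : Fin C.d =>
    MvPolynomial.X 0 * MvPolynomial.C ((mulMat C c i j).eval β) -
      MvPolynomial.X 1 * MvPolynomial.C ((mulMat C a i j).eval β)).det
  let Ψ' : MvPolynomial (Fin 2) Qb := ((Fib C β).map fun Q =>
    MvPolynomial.C (Q c) * MvPolynomial.X 0 - MvPolynomial.C (Q a) * MvPolynomial.X 1).prod
  have h : Ψ = Ψ' := by
    apply MvPolynomial.funext
    intro x
    have h1 : MvPolynomial.eval x Ψ = (Matrix.of fun i j : Fin C.d =>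
        x 0 * (mulMat C c i j).eval β - x 1 * (mulMat C a i j).eval β).det := by
      rw [RingHom.map_det]
      congr 1
      ext i j
      simp
    have h2 : MvPolynomial.eval x Ψ' = ((Fib C β).map fun Q => Q c * x 0 - Q a * x 1).prod := by
      rw [map_multiset_prod, Multiset.map_map]
      congr 1
      refine Multiset.map_congr rfl fun Q _ => ?_
      simp
    rw [h1, h2, det_pencil_eq_prod]
  have h3 : MvPolynomial.aeval ![a, c] Ψ = (xi C a c).eval (algebraMap Qb A β) := by
    rw [xi_eval_eq_det, AlgHom.map_det]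
    congr 1
    ext i j
    simp [Polynomial.aeval_algebraMap_apply]
  have h4 : MvPolynomial.aeval ![a, c] Ψ' = ((Fib C β).map fun Q => Q c • a - Q a • c).prod := by
    rw [map_multiset_prod, Multiset.map_map]
    congr 1
    refine Multiset.map_congr rfl fun Q _ => ?_
    simp [Algebra.smul_def]
  rw [← h3, h, h4]

theorem etaAt_mul (a c : A) (β : Qb) : (algebraMap Qb A β - C.t) * etaAt C a c β =
    ((Fib C β).map fun Q => Q c • a - Q a • c).prod := by
  rw [← xi_eval, xi_eq, Polynomial.eval_mul, Polynomial.eval_sub, Polynomial.eval_X,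
    Polynomial.eval_C, etaAt]

end Fermat.Agent.S17.H
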