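import Fermat.Agent.S17.H.Cw
import Fermat.Agent.S17.H.X1.Eta

/-!
# S17, part H, node X1-h: the value `G_{a,c}(α,β)`: product formula, symmetry, weight and top
coefficient of `η_β` (helper109)
-/

set_option autoImplicit false

noncomputable section

open scoped Classical

namespace Fermat.Agent.S17.H

open Polynomial

variable {A : Type} [CommRing A] [Algebra Qb A] (C : WCurve A)

/-- the value `G_{a,c}(α,β)`. -/
def Gv (a c : A) (α β : Qb) : Qb := (Nm C (etaAt C a c β)).eval α

theorem Gv_eq_prod (a c : A) (α β : Qb) :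
    Gv C a c α β = ((Fib C α).map fun P => P (etaAt C a c β)).prod := eval_Nm C α _

/-- product formula (all `α, β`, fibres with multiplicities). -/
theorem sub_pow_mul_Gv (a c : A) (α β : Qb) : (β - α) ^ C.d * Gv C a c α β =
    ((Fib C α).map fun P => ((Fib C β).map fun Q => P a * Q c - P c * Q a).prod).prod := by
  have h1 : ∀ P ∈ Fib C α, ((Fib C β).map fun Q => P a * Q c - P c * Q a).prod
      = (β - α) * P (etaAt C a c β) := by
    intro P hP
    have h2 := congrArg P (etaAt_mul C a c β)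
    rw [map_mul, map_sub, AlgHom.commutes, (mem_Fib C).1 hP, map_multiset_prod,
      Multiset.map_map] at h2
    rw [Algebra.algebraMap_self, RingHom.id_apply] at h2
    rw [h2]
    congr 1
    apply Multiset.map_congr rfl
    intro Q _
    simp only [Function.comp_apply, map_sub, map_smul, smul_eq_mul]
    ring
  rw [Multiset.map_congr rfl h1, Multiset.prod_map_mul, Multiset.map_const', Multiset.prod_replicate,
    card_Fib, Gv_eq_prod]

theorem Gv_symm (a c : A) {α β : Qb} (h : α ≠ β) : Gv C a c α β = Gv C a c β α := by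
  have h1 := sub_pow_mul_Gv C a c α β
  have h2 := sub_pow_mul_Gv C a c β α
  rw [Multiset.prod_map_prod_map] at h2
  have h3 : ∀ P ∈ Fib C α, ((Fib C β).map fun Q => Q a * P c - Q c * P a).prod
      = (-1) ^ C.d * ((Fib C β).map fun Q => P a * Q c - P c * Q a).prod := by
    intro P _
    have h4 : ∀ Q ∈ Fib C β, Q a * P c - Q c * P a = (-1) * (P a * Q c - P c * Q a) := by
      intro Q _
      ring
    rw [Multiset.map_congr rfl h4, Multiset.prod_map_mul, Multiset.map_const',
      Multiset.prod_replicate, card_Fib]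
  rw [Multiset.map_congr rfl h3, Multiset.prod_map_mul, Multiset.map_const',
    Multiset.prod_replicate, card_Fib, ← h1] at h2
  have h5 : (α - β) ^ C.d = (-1) ^ C.d * (β - α) ^ C.d := by
    rw [← mul_pow]
    congr 1
    ring
  have h6 : ((-1 : Qb) ^ C.d) ^ C.d = (-1) ^ C.d := by
    rcases Nat.even_or_odd C.d with he | ho
    · rw [he.neg_one_pow, one_pow]
    · rw [ho.neg_one_pow, ho.neg_one_pow]
  rw [h5, h6, mul_assoc] at h2
  have h7 : ((-1 : Qb) ^ C.d) ≠ 0 := pow_ne_zero _ (by norm_num)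
  have h8 : (β - α) ^ C.d ≠ 0 := pow_ne_zero _ (sub_ne_zero.2 h.symm)
  exact (mul_left_cancel₀ h8 (mul_left_cancel₀ h7 h2)).symm

/-! ### weights -/

theorem Gv.algebraMap_mem_V (n : ℕ) (β : Qb) : algebraMap Qb A β ∈ C.V n := by
  rw [Algebra.algebraMap_eq_smul_one]
  exact (C.V n).smul_mem _ (one_mem_V C n)

theorem Gv.multiset_prod_mem_V {ι : Type*} (s : Multiset ι) (f : ι → A) (m : ℕ)
    (h : ∀ i ∈ s, f i ∈ C.V m) : (s.map f).prod ∈ C.V (s.card * m) := by
  induction s using Multiset.induction_on with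
  | empty => simpa using one_mem_V C 0
  | cons i s ih =>
    rw [Multiset.map_cons, Multiset.prod_cons, Multiset.card_cons, add_mul, one_mul, add_comm]
    exact mul_mem_V C (h i (Multiset.mem_cons_self i s))
      (ih fun j hj => h j (Multiset.mem_cons_of_mem hj))

theorem Gv.cw_zero_one : cw C 0 (1 : A) = 1 := by
  have h1 : (1 : A) ≠ 0 := C.b_zero ▸ C.b.ne_zero 0
  have := cw_eq_lc C h1
  rwa [wt_one, lc_one] at this

theorem Gv.cw_multiset_prod {ι : Type*} (s : Multiset ι) (f : ι → A) (m : ℕ)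
    (h : ∀ i ∈ s, f i ∈ C.V m) :
    cw C (s.card * m) (s.map f).prod = (s.map fun i => cw C m (f i)).prod := by
  induction s using Multiset.induction_on with
  | empty =>
    simpa using Gv.cw_zero_one C
  | cons i s ih =>
    rw [Multiset.map_cons, Multiset.prod_cons, Multiset.card_cons, add_mul, one_mul, add_comm,
      cw_mul C (h i (Multiset.mem_cons_self i s))
        (Gv.multiset_prod_mem_V C s f m fun j hj => h j (Multiset.mem_cons_of_mem hj)),
      ih fun j hj => h j (Multiset.mem_cons_of_mem hj), Multiset.map_cons, Multiset.prod_cons]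

theorem Gv.sub_t_mem_V (β : Qb) : algebraMap Qb A β - C.t ∈ C.V C.d :=
  (C.V C.d).sub_mem (Gv.algebraMap_mem_V C _ β) (t_mem_V C)

theorem Gv.cw_sub_t (β : Qb) : cw C C.d (algebraMap Qb A β - C.t) = -1 := by
  have h1 : cw C C.d (algebraMap Qb A β) = 0 :=
    cw_eq_zero_of_mem C (d_pos C) (Gv.algebraMap_mem_V C 0 β)
  have h2 : cw C C.d C.t = 1 := by
    have := cw_eq_lc C (t_ne_zero C)
    rwa [wt_t, lc_t] at this
  rw [cw_sub, h1, h2, zero_sub]

theorem Gv.wt_sub_t (β : Qb) : C.wt (algebraMap Qb A β - C.t) = C.d := by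
  apply le_antisymm ((mem_V_iff C _ _).1 (Gv.sub_t_mem_V C β))
  by_contra h
  have h1 : algebraMap Qb A β - C.t ∈ C.V (C.wt (algebraMap Qb A β - C.t)) :=
    (mem_V_iff C _ _).2 le_rfl
  have h2 := cw_eq_zero_of_mem C (not_le.1 h) h1
  rw [Gv.cw_sub_t] at h2
  norm_num at h2

theorem Gv.pencil_mem_V {m : ℕ} {a c : A} (ha : a ∈ C.V (m - 1)) (hc : c ∈ C.V m) (r s : Qb) :
    r • a - s • c ∈ C.V m :=
  (C.V m).sub_mem ((C.V m).smul_mem _ (V_mono C (Nat.sub_le m 1) ha)) ((C.V m).smul_mem _ hc)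

/-- weights. -/
theorem etaAt_mem_V {m : ℕ} (hm : 1 ≤ m) {a c : A} (ha : a ∈ C.V (m - 1)) (hc : c ∈ C.V m) (β : Qb) :
    etaAt C a c β ∈ C.V (C.d * (m - 1)) := by
  have _ := hm
  rcases eq_or_ne (etaAt C a c β) 0 with h0 | h0
  · rw [h0]
    exact (C.V _).zero_mem
  have h1 : ((Fib C β).map fun Q => Q c • a - Q a • c).prod ∈ C.V ((Fib C β).card * m) :=
    Gv.multiset_prod_mem_V C _ _ m fun Q _ => Gv.pencil_mem_V C ha hc _ _
  have h2 : algebraMap Qb A β - C.t ≠ 0 := by
    intro h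
    have := Gv.wt_sub_t C β
    rw [h, wt_zero] at this
    exact (d_pos C).ne this
  rw [← etaAt_mul, card_Fib, mem_V_iff, wt_mul C h2 h0, Gv.wt_sub_t] at h1
  rw [mem_V_iff, Nat.mul_sub, mul_one]
  omega

theorem cw_etaAt {m : ℕ} (hm : 1 ≤ m) {a c : A} (ha : a ∈ C.V (m - 1)) (hc : c ∈ C.V m) (β : Qb) :
    cw C (C.d * (m - 1)) (etaAt C a c β) = (Nm C a).eval β * cw C m c ^ C.d ∨
      cw C (C.d * (m - 1)) (etaAt C a c β) = - ((Nm C a).eval β * cw C m c ^ C.d) := by
  have h1 := cw_mul C (Gv.sub_t_mem_V C β) (etaAt_mem_V C hm ha hc β)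
  have h2 := Gv.cw_multiset_prod C (Fib C β) (fun Q => Q c • a - Q a • c) m
    fun Q _ => Gv.pencil_mem_V C ha hc _ _
  have h3 : ∀ Q ∈ Fib C β, cw C m (Q c • a - Q a • c) = (- cw C m c) * Q a := by
    intro Q _
    rw [cw_sub, cw_smul, cw_smul, cw_eq_zero_of_mem C (by omega) ha]
    ring
  rw [Multiset.map_congr rfl h3, Multiset.prod_map_mul, Multiset.map_const',
    Multiset.prod_replicate, card_Fib, ← eval_Nm] at h2
  have e : C.d + C.d * (m - 1) = C.d * m := by
    obtain ⟨k, rfl⟩ : ∃ k, m = k + 1 := ⟨m - 1, by omega⟩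
    rw [Nat.add_sub_cancel]
    ring
  rw [etaAt_mul, e, h2, Gv.cw_sub_t, neg_pow] at h1
  rcases neg_one_pow_eq_or Qb C.d with h | h
  · right
    rw [h] at h1
    linear_combination h1
  · left
    rw [h] at h1
    linear_combination h1

/-- points `(∞, β)`. -/
theorem coeff_top_Gv {m : ℕ} (hm : 1 ≤ m) {a c : A} (ha : a ∈ C.V (m - 1)) (hc : c ∈ C.V m) (β : Qb) :
    (Nm C (etaAt C a c β)).coeff (C.d * (m - 1)) = ((Nm C a).eval β * cw C m c ^ C.d) ^ C.d ∨
    (Nm C (etaAt C a c β)).coeff (C.d * (m - 1)) = - ((Nm C a).eval β * cw C m c ^ C.d) ^ C.d := by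
  have key : cw C (C.d * (m - 1)) (etaAt C a c β) ^ C.d = ((Nm C a).eval β * cw C m c ^ C.d) ^ C.d ∨
      cw C (C.d * (m - 1)) (etaAt C a c β) ^ C.d
        = - ((Nm C a).eval β * cw C m c ^ C.d) ^ C.d := by
    rcases cw_etaAt C hm ha hc β with h | h
    · exact Or.inl (by rw [h])
    · rw [h, neg_pow]
      rcases neg_one_pow_eq_or Qb C.d with h' | h'
      · exact Or.inl (by rw [h', one_mul])
      · exact Or.inr (by rw [h', neg_one_mul])
  rcases coeff_Nm_top C (etaAt_mem_V C hm ha hc β) with h | h <;> rcases key with k | k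
  · exact Or.inl (by rw [h, k])
  · exact Or.inr (by rw [h, k])
  · exact Or.inr (by rw [h, k])
  · exact Or.inl (by rw [h, k, neg_neg])

end Fermat.Agent.S17.H
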