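import Fermat.Agent.S17.H.X1.GvPolyCore
import Fermat.Agent.S17.H.X1.Gv
import Fermat.Agent.S17.H.BiProj

/-!
# S17, part H, node X1-i: `G_{a,c}(α,β)` is a polynomial of bidegree `≤ (D,D)`   (helper110)
-/

set_option autoImplicit false

noncomputable section

open scoped Classical

namespace Fermat.Agent.S17.H

open Polynomial

variable {A : Type} [CommRing A] [Algebra Qb A] (C : WCurve A)

/-- polynomiality in `β` (some degree `D'`). -/
theorem exists_coeffs_Gv {m : ℕ} (hm : 1 ≤ m) {a c : A} (ha : a ∈ C.V (m - 1)) (hc : c ∈ C.V m) :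
    ∃ (D' : ℕ) (g' : Fin (C.d * (m - 1) + 1) → Fin (D' + 1) → Qb), ∀ α β : Qb,
      Gv C a c α β = ∑ i, ∑ j, g' i j * α ^ (i : ℕ) * β ^ (j : ℕ) :=
  exists_coeffs_Nm_eval C (eta C a c) (C.d * (m - 1)) fun β =>
    natDegree_Nm_le C (etaAt_mem_V C hm ha hc β)

/-- the coefficient matrix of `G_{a,c}`: bidegree `≤ (D,D)`, symmetric. -/
theorem exists_ev2_Gv {m : ℕ} (hm : 1 ≤ m) {a c : A} (ha : a ∈ C.V (m - 1)) (hc : c ∈ C.V m) :
    ∃ g : Fin (C.d * (m - 1) + 1) → Fin (C.d * (m - 1) + 1) → Qb, (∀ i j, g i j = g j i) ∧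
      ∀ α β : Qb, ev2 g α β = Gv C a c α β := by
  obtain ⟨D', g', hg'⟩ := exists_coeffs_Gv C hm ha hc
  obtain ⟨g, hs, hg⟩ := exists_ev2_of_symm (C.d * (m - 1)) D' g' fun α β hαβ => by
    rw [← hg', ← hg', Gv_symm C a c hαβ]
  exact ⟨g, hs, fun α β => by rw [hg, hg']⟩

end Fermat.Agent.S17.H
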