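import Fermat.Agent.S17.H.FibDef
import Fermat.Agent.S17.H.CountFib
import Fermat.Agent.S17.H.X1.Eta
import Fermat.Agent.S17.H.X1.Gv

/-!
# S17, part H, node X1-j: non vanishing of `G_{a,c}(α, β)` at the finite points of `ℙ¹ × ℙ¹`
(helper240)
-/

set_option autoImplicit false

noncomputable section

open scoped Classical

namespace Fermat.Agent.S17.H

open Polynomial

namespace NonVanish

/-- In a Dedekind domain: `x ∉ 𝔪²`, `u ∉ 𝔪` imply `x ^ k * u ∉ 𝔪 ^ (k + 1)`. -/
theorem pow_mul_not_mem {R : Type*} [CommRing R] [IsDedekindDomain R] (𝔪 : Ideal R) [h𝔪 : 𝔪.IsPrime]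
    {x u : R} (hx : x ∉ 𝔪 ^ 2) (hu : u ∉ 𝔪) (k : ℕ) : x ^ k * u ∉ 𝔪 ^ (k + 1) := by
  have hx0 : x ≠ 0 := fun h => hx (h ▸ Ideal.zero_mem _)
  have hu0 : u ≠ 0 := fun h => hu (h ▸ Ideal.zero_mem _)
  by_cases hbot : 𝔪 = ⊥
  · subst hbot
    rw [Ideal.bot_pow (Nat.succ_ne_zero k), Ideal.mem_bot]
    exact mul_ne_zero (pow_ne_zero _ hx0) hu0
  · let v : IsDedekindDomain.HeightOneSpectrum R := ⟨𝔪, h𝔪, hbot⟩
    have e1 : ∀ (r : R) (n : ℕ), v.intValuation r ≤ WithZero.exp (-(n : ℤ)) ↔ r ∈ 𝔪 ^ n :=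
      fun r n => v.intValuation_le_pow_iff_mem r n
    have hvu : v.intValuation u = 1 :=
      IsDedekindDomain.HeightOneSpectrum.intValuation_eq_one_iff.mpr hu
    have hvx0 : v.intValuation x ≠ 0 := v.intValuation_ne_zero x hx0
    obtain ⟨n, hn⟩ : ∃ n : ℤ, v.intValuation x = WithZero.exp n :=
      ⟨WithZero.log (v.intValuation x), (WithZero.exp_log hvx0).symm⟩
    have hn2 : -2 < n := by
      have := (e1 x 2).not.mpr hx
      rw [hn, WithZero.exp_le_exp, not_le] at this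
      exact_mod_cast this
    rw [← e1, map_mul, map_pow, hvu, mul_one, hn, ← WithZero.exp_nsmul, WithZero.exp_le_exp, not_le,
      nsmul_eq_mul]
    push_cast
    have hk : (0 : ℤ) ≤ k := Int.natCast_nonneg k
    nlinarith

variable {A : Type} [CommRing A] [Algebra Qb A] (C : WCurve A)

/-- The abstract core: `η` plays the role of `η_β`. -/
theorem apply_ne_zero [IsDedekindDomain A]
    (hcount : ∀ P : Pt A, C.t - algebraMap Qb A (P C.t) ∈ mI P ^ ((Fib C (P C.t)).count P))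
    (α β : Qb) {a c η : A}
    (hη : (algebraMap Qb A β - C.t) * η = ((Fib C β).map fun Q => Q c • a - Q a • c).prod)
    (h1 : ∀ Q : Pt A, Q C.t = α ∨ Q C.t = β → Q a = 1)
    (h2 : ∀ P Q : Pt A, P C.t = α ∨ P C.t = β → Q C.t = α ∨ Q C.t = β → P ≠ Q → P c ≠ Q c)
    (h3 : ∀ Q : Pt A, Q C.t = α ∨ Q C.t = β → Q c • a - c ∉ mI Q ^ 2)
    (P : Pt A) (hP : P C.t = α) : P η ≠ 0 := by
  have hPa : P a = 1 := h1 P (Or.inl hP)
  -- the value at `P` of a factor
  have hfac : ∀ Q : Pt A, Q C.t = β → P (Q c • a - Q a • c) = Q c - P c := by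
    intro Q hQ
    rw [map_sub, map_smul, map_smul, hPa, h1 Q (Or.inr hQ), smul_eq_mul, smul_eq_mul, mul_one,
      one_mul]
  by_cases hαβ : α = β
  · subst hαβ
    intro hzero
    have hηm : η ∈ mI P := hzero
    set k := (Fib C α).count P with hk
    -- left hand side
    have hL : (algebraMap Qb A α - C.t) * η ∈ mI P ^ (k + 1) := by
      rw [pow_succ]
      refine Ideal.mul_mem_mul ?_ hηm
      have := hcount P
      rw [hP] at this
      have h' := (mI P ^ k).neg_mem this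
      rwa [neg_sub] at h'
    -- right hand side
    have hdec : Fib C α = Multiset.replicate k P + (Fib C α).filter (fun Q => ¬ (Q = P)) := by
      rw [hk, ← Multiset.filter_eq', Multiset.filter_add_not]
    have hR : ((Fib C α).map fun Q => Q c • a - Q a • c).prod =
        (P c • a - c) ^ k * (((Fib C α).filter (fun Q => ¬ (Q = P))).map
          fun Q => Q c • a - Q a • c).prod := by
      conv_lhs => rw [hdec]
      rw [Multiset.map_add, Multiset.prod_add, Multiset.map_replicate, Multiset.prod_replicate, hPa,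
        one_smul]
    have hu : (((Fib C α).filter (fun Q => ¬ (Q = P))).map
          fun Q => Q c • a - Q a • c).prod ∉ mI P := by
      rw [mem_mI, map_multiset_prod, Multiset.map_map]
      apply Multiset.prod_ne_zero
      intro h0
      obtain ⟨Q, hQ, hQ0⟩ := Multiset.mem_map.mp h0
      rw [Multiset.mem_filter] at hQ
      have hQt : Q C.t = α := (mem_Fib C).mp hQ.1
      rw [Function.comp_apply, hfac Q hQt, sub_eq_zero] at hQ0
      exact h2 Q P (Or.inl hQt) (Or.inl hP) hQ.2 hQ0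
    rw [hη, hR] at hL
    exact pow_mul_not_mem (mI P) (h3 P (Or.inl hP)) hu k hL
  · intro hzero
    have h4 := congrArg P hη
    rw [map_mul, hzero, mul_zero, map_multiset_prod, Multiset.map_map] at h4
    refine Multiset.prod_ne_zero ?_ h4.symm
    intro h0
    obtain ⟨Q, hQ, hQ0⟩ := Multiset.mem_map.mp h0
    have hQt : Q C.t = β := (mem_Fib C).mp hQ
    rw [Function.comp_apply, hfac Q hQt, sub_eq_zero] at hQ0
    refine h2 Q P (Or.inr hQt) (Or.inl hP) ?_ hQ0
    rintro rfl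
    exact hαβ (hP.symm.trans hQt)

/-- `Gv_ne_zero` with `Gv` unfolded. -/
theorem eval_Nm_etaAt_ne_zero [IsDedekindDomain A] (α β : Qb) {a c : A}
    (h1 : ∀ Q : Pt A, Q C.t = α ∨ Q C.t = β → Q a = 1)
    (h2 : ∀ P Q : Pt A, P C.t = α ∨ P C.t = β → Q C.t = α ∨ Q C.t = β → P ≠ Q → P c ≠ Q c)
    (h3 : ∀ Q : Pt A, Q C.t = α ∨ Q C.t = β → Q c • a - c ∉ mI Q ^ 2) :
    (Nm C (etaAt C a c β)).eval α ≠ 0 := by
  rw [eval_Nm]
  apply Multiset.prod_ne_zero
  intro h0
  obtain ⟨P, hP, hP0⟩ := Multiset.mem_map.mp h0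
  exact apply_ne_zero C (fun P => (count_Fib C P).1) α β (etaAt_mul C a c β) h1 h2 h3 P
    ((mem_Fib C).mp hP) hP0

end NonVanish

variable {A : Type} [CommRing A] [Algebra Qb A] (C : WCurve A)

/-- finite points. -/
theorem Gv_ne_zero [IsDedekindDomain A] (α β : Qb) {a c : A}
    (h1 : ∀ Q : Pt A, Q C.t = α ∨ Q C.t = β → Q a = 1)
    (h2 : ∀ P Q : Pt A, P C.t = α ∨ P C.t = β → Q C.t = α ∨ Q C.t = β → P ≠ Q → P c ≠ Q c)
    (h3 : ∀ Q : Pt A, Q C.t = α ∨ Q C.t = β → Q c • a - c ∉ mI Q ^ 2) :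
    Gv C a c α β ≠ 0 :=
  NonVanish.eval_Nm_etaAt_ne_zero C α β h1 h2 h3

end Fermat.Agent.S17.H

end
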