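import Fermat.Agent.S17.H.X1.MainOf
import Fermat.Agent.S17.H.BiProj
import Fermat.Agent.S17.H.X1.Gv
import Fermat.Agent.S17.H.X1.GvPoly
import Fermat.Agent.S17.H.X1.NonVanish

/-!
# S17, part H, block X1: `exists_family`, `cross_fibre_lower`
(task S17-H-X1-k, helper107; the proofs are in `X1/MainOf.lean`)
-/

set_option autoImplicit false

noncomputable section

open scoped Classical

namespace Fermat.Agent.S17.H

open Polynomial

variable (𝔳 : AbsFam) {A : Type} [CommRing A] [Algebra Qb A] (C : WCurve A)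

/-- the family of all pencils has no common zero on `ℙ¹ × ℙ¹`: the four hypotheses of
`biproj_lower` for `ι = {(a,c) | a ∈ V (m-1), c ∈ V m}` and the matrices of `exists_ev2_Gv`. -/
theorem exists_family [IsDedekindDomain A] {m : ℕ} (hm : 4 * C.d + 2 * C.g + 2 ≤ m) :
    ∃ (S : Finset (A × A)) (γ : MConst), (∀ p ∈ S, p.1 ∈ C.V (m - 1) ∧ p.2 ∈ C.V m) ∧
      ∀ (v : Pl) (α β : Qb), ∃ p ∈ S,
        (mx 𝔳 v α * mx 𝔳 v β) ^ (C.d * (m - 1)) ≤
          Real.exp (γ.c v) * 𝔳.av v (Gv C p.1 p.2 α β) :=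
  exists_family_of 𝔳 C (etaAt C) (fun D _ g => biproj_lower 𝔳 D g) (exists_ev2_Gv C)
    (Gv_ne_zero C) (coeff_top_Gv C) hm

/-- (X1) cross fibres. -/
theorem cross_fibre_lower [IsDedekindDomain A] : ∃ m₀ : ℕ, ∀ m : ℕ, m₀ ≤ m →
    ∃ γ : MConst, ∀ (v : Pl) (α α' : Qb), α ≠ α' → ∀ F F' : Finset (Pt A),
      (∀ P, P ∈ F ↔ P C.t = α) → (∀ P, P ∈ F' ↔ P C.t = α') → F.card = C.d → F'.card = C.d →
      C.d * Real.log (𝔳.av v (α - α')) +
        ((C.d : ℝ) * ((m : ℝ) - 1)) * (Real.log (mx 𝔳 v α) + Real.log (mx 𝔳 v α')) ≤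
      ∑ P ∈ F, ∑ Q ∈ F', Real.log (C.w2 𝔳 m v P Q) + γ.c v :=
  cross_fibre_lower_of 𝔳 C (etaAt C) (exists_family 𝔳 C) (sub_pow_mul_Gv C)

end Fermat.Agent.S17.H
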