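import Fermat.Agent.S17.H.Apery

/-!
# S17, part H, node X1-i (core): the norm of a polynomial family `η(β)` is polynomial in `β`
(helper110)
-/

set_option autoImplicit false

noncomputable section

open scoped Classical

namespace Fermat.Agent.S17.H

open Polynomial

variable {A : Type} [CommRing A] [Algebra Qb A] (C : WCurve A)

/-- the matrix of `η ∈ A[T']` over `ℚ̄[T][T']` (outer variable `T'`). -/
def mulMat2 (η : A[X]) : Matrix (Fin C.d) (Fin C.d) Qb[X][X] := fun i j =>
  ∑ k ∈ η.support, Polynomial.monomial k (mulMat C (η.coeff k) i j)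

/-- the norm of `η ∈ A[T']`, in `ℚ̄[T][T']`. -/
def Nm2 (η : A[X]) : Qb[X][X] := (mulMat2 C η).det

theorem mulMat_eval_algebraMap (η : A[X]) (β : Qb) :
    mulMat C (η.eval (algebraMap Qb A β)) =
      (evalRingHom (Polynomial.C β : Qb[X])).mapMatrix (mulMat2 C η) := by
  rw [Polynomial.eval_eq_sum, Polynomial.sum, mulMat_finset_sum]
  refine Matrix.ext fun i j => ?_
  have h1 : (evalRingHom (Polynomial.C β : Qb[X])).mapMatrix (mulMat2 C η) i j =
      ∑ k ∈ η.support, (Polynomial.monomial k (mulMat C (η.coeff k) i j)).eval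
        (Polynomial.C β : Qb[X]) := by
    rw [RingHom.mapMatrix_apply, Matrix.map_apply, mulMat2, coe_evalRingHom, eval_finsetSum]
  rw [h1, Matrix.sum_apply]
  refine Finset.sum_congr rfl fun k _ => ?_
  rw [eval_monomial, ← map_pow, mul_comm (η.coeff k), ← Algebra.smul_def,
    mulMat_smul, Matrix.smul_apply, smul_eq_mul, ← map_pow, mul_comm]

theorem eval_C_Nm2 (η : A[X]) (β : Qb) :
    (Nm2 C η).eval (Polynomial.C β) = Nm C (η.eval (algebraMap Qb A β)) := by
  rw [Nm, mulMat_eval_algebraMap, ← RingHom.map_det]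
  rfl

theorem coeff_eval_C (G : Qb[X][X]) (β : Qb) (i : ℕ) :
    (G.eval (Polynomial.C β)).coeff i =
      ∑ j ∈ Finset.range (G.natDegree + 1), (G.coeff j).coeff i * β ^ j := by
  rw [eval_eq_sum_range, finsetSum_coeff]
  refine Finset.sum_congr rfl fun j _ => ?_
  rw [← map_pow, coeff_mul_C]

/-- **core of `exists_coeffs_Gv`.** -/
theorem exists_coeffs_Nm_eval (η : A[X]) (D : ℕ)
    (hD : ∀ β : Qb, (Nm C (η.eval (algebraMap Qb A β))).natDegree ≤ D) :
    ∃ (D' : ℕ) (g' : Fin (D + 1) → Fin (D' + 1) → Qb), ∀ α β : Qb,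
      (Nm C (η.eval (algebraMap Qb A β))).eval α =
        ∑ i, ∑ j, g' i j * α ^ (i : ℕ) * β ^ (j : ℕ) := by
  refine ⟨(Nm2 C η).natDegree, fun i j => ((Nm2 C η).coeff j).coeff i, fun α β => ?_⟩
  rw [eval_eq_sum_range' (Nat.lt_succ_of_le (hD β)), ← Fin.sum_univ_eq_sum_range
    (fun i => (Nm C (η.eval (algebraMap Qb A β))).coeff i * α ^ i)]
  refine Finset.sum_congr rfl fun i _ => ?_
  rw [← eval_C_Nm2, coeff_eval_C, ← Fin.sum_univ_eq_sum_range
    (fun j => ((Nm2 C η).coeff j).coeff i * β ^ j), Finset.sum_mul]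
  refine Finset.sum_congr rfl fun j _ => ?_
  ring

end Fermat.Agent.S17.H
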