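import Fermat.Agent.S17.H.Cw
import Fermat.Agent.S17.H.FibDef
import Fermat.Agent.S17.H.Pencil
import Fermat.Agent.S17.H.PencilBound
import Fermat.Agent.S17.H.Indep

/-!
# S17, part H, block X1: assembly (`exists_family`, `cross_fibre_lower`), abstract form

The nodes of the block X1 which are used (`biproj_lower`, `exists_ev2_Gv`, `Gv_ne_zero`,
`coeff_top_Gv`, `sub_pow_mul_Gv`) enter as explicit hypotheses about an arbitrary function
`E : A → A → Qb → A` (to be instantiated by `etaAt C`); `Gv C a c α β` is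
`(Nm C (E a c β)).eval α` and `ev2 g α β` is written out.
(task S17-H-X1-k, helper107)
-/

set_option autoImplicit false

noncomputable section

open scoped Classical

namespace Fermat.Agent.S17.H

open Polynomial

namespace X1Main

/-! ## Polynomials given by a coefficient vector -/

/-- the polynomial with coefficient vector `r`. -/
def pol {D : ℕ} (r : Fin (D + 1) → Qb) : Qb[X] := ∑ j, Polynomial.C (r j) * X ^ (j : ℕ)

theorem eval_pol {D : ℕ} (r : Fin (D + 1) → Qb) (β : Qb) :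
    (pol r).eval β = ∑ j, r j * β ^ (j : ℕ) := by
  unfold pol
  rw [eval_finsetSum]
  refine Finset.sum_congr rfl fun j _ => ?_
  rw [eval_mul, eval_C, eval_pow, eval_X]

theorem coeff_pol {D : ℕ} (r : Fin (D + 1) → Qb) (k : Fin (D + 1)) :
    (pol r).coeff (k : ℕ) = r k := by
  unfold pol
  rw [finsetSum_coeff, Finset.sum_eq_single k]
  · rw [coeff_C_mul, coeff_X_pow, if_pos rfl, mul_one]
  · intro j _ hj
    rw [coeff_C_mul, coeff_X_pow, if_neg, mul_zero]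
    intro h
    exact hj (Fin.ext h.symm)
  · intro h
    exact absurd (Finset.mem_univ k) h

/-- comparison of the coefficients in the first variable. -/
theorem coeff_of_eval {D : ℕ} (g : Fin (D + 1) → Fin (D + 1) → Qb) (β : Qb) (N : Qb[X])
    (h : ∀ α : Qb, ∑ i, ∑ j, g i j * α ^ (i : ℕ) * β ^ (j : ℕ) = N.eval α) (i : Fin (D + 1)) :
    ∑ j, g i j * β ^ (j : ℕ) = N.coeff (i : ℕ) := by
  have hN : pol (fun i => ∑ j, g i j * β ^ (j : ℕ)) = N := by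
    refine Polynomial.funext fun α => ?_
    rw [eval_pol, ← h α]
    refine Finset.sum_congr rfl fun i _ => ?_
    rw [Finset.sum_mul]
    refine Finset.sum_congr rfl fun j _ => ?_
    ring
  rw [← hN, coeff_pol]

/-- two polynomials which agree up to sign at every point have the same degree. -/
theorem natDegree_eq_of_eval (p q : Qb[X]) (h : ∀ β : Qb, p.eval β = q.eval β ∨ p.eval β = - q.eval β) :
    p.natDegree = q.natDegree := by
  have hsq : p ^ 2 = q ^ 2 := by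
    refine Polynomial.funext fun β => ?_
    rw [eval_pow, eval_pow]
    rcases h β with h | h
    · rw [h]
    · rw [h, neg_sq]
  have := congrArg natDegree hsq
  rw [natDegree_pow, natDegree_pow] at this
  omega

end X1Main

open X1Main

variable (𝔳 : AbsFam) {A : Type} [CommRing A] [Algebra Qb A] (C : WCurve A)

/-- GP: good pencils. -/
theorem X1Main.good_pencil [IsDedekindDomain A] (S : Finset (Pt A)) {m : ℕ}
    (hm : 2 * S.card + 2 * C.g + 2 ≤ m) :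
    ∃ a c : A, C.wt a = m - 1 ∧ C.wt c = m ∧ (∀ Q ∈ S, Q a = 1) ∧
      (∀ P ∈ S, ∀ Q ∈ S, P ≠ Q → P c ≠ Q c) ∧ ∀ Q ∈ S, Q c • a - c ∉ mI Q ^ 2 :=
  exists_good_pencil_of C (fun I e _ he _ hn => V_sup_ideal_eq_top C I e he hn) S hm

/-- an element of positive weight is nonzero. -/
theorem X1Main.ne_zero_of_wt {f : A} {n : ℕ} (hn : 0 < n) (hf : C.wt f = n) : f ≠ 0 := by
  rintro rfl
  rw [wt_zero] at hf
  omega

/-- `cw m c ≠ 0` if `wt c = m > 0`. -/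
theorem X1Main.cw_ne_zero {c : A} {m : ℕ} (hm : 0 < m) (hc : C.wt c = m) : cw C m c ≠ 0 := by
  have h0 := X1Main.ne_zero_of_wt C hm hc
  rw [← hc, cw_eq_lc C h0]
  exact lc_ne_zero C h0

/-- `Nm a (β) = 1` if `a = 1` on the fibre of `β`. -/
theorem X1Main.eval_Nm_eq_one {a : A} {β : Qb} (h : ∀ Q : Pt A, Q C.t = β → Q a = 1) :
    (Nm C a).eval β = 1 := by
  rw [eval_Nm]
  refine Multiset.prod_eq_one fun x hx => ?_
  obtain ⟨Q, hQ, rfl⟩ := Multiset.mem_map.1 hx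
  exact h Q ((mem_Fib C).1 hQ)

/-- the family of all pencils has no common zero on `ℙ¹ × ℙ¹`, abstract form. -/
theorem exists_family_of [IsDedekindDomain A] (E : A → A → Qb → A)
    (h_biproj : ∀ (D : ℕ) {ι : Type} (g : ι → Fin (D + 1) → Fin (D + 1) → Qb),
      (∀ α β : Qb, ∃ k, ∑ i, ∑ j, g k i j * α ^ (i : ℕ) * β ^ (j : ℕ) ≠ 0) →
      (∀ β : Qb, ∃ k, ∑ j, g k (Fin.last D) j * β ^ (j : ℕ) ≠ 0) →
      (∀ α : Qb, ∃ k, ∑ i, g k i (Fin.last D) * α ^ (i : ℕ) ≠ 0) →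
      (∃ k, g k (Fin.last D) (Fin.last D) ≠ 0) →
      ∃ (S : Finset ι) (γ : MConst), ∀ (v : Pl) (α β : Qb), ∃ k ∈ S,
        (mx 𝔳 v α * mx 𝔳 v β) ^ D ≤
          Real.exp (γ.c v) * 𝔳.av v (∑ i, ∑ j, g k i j * α ^ (i : ℕ) * β ^ (j : ℕ)))
    (h_ev2 : ∀ {m : ℕ}, 1 ≤ m → ∀ {a c : A}, a ∈ C.V (m - 1) → c ∈ C.V m →
      ∃ g : Fin (C.d * (m - 1) + 1) → Fin (C.d * (m - 1) + 1) → Qb, (∀ i j, g i j = g j i) ∧
        ∀ α β : Qb, ∑ i, ∑ j, g i j * α ^ (i : ℕ) * β ^ (j : ℕ) = (Nm C (E a c β)).eval α)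
    (h_ne : ∀ (α β : Qb) {a c : A}, (∀ Q : Pt A, Q C.t = α ∨ Q C.t = β → Q a = 1) →
      (∀ P Q : Pt A, P C.t = α ∨ P C.t = β → Q C.t = α ∨ Q C.t = β → P ≠ Q → P c ≠ Q c) →
      (∀ Q : Pt A, Q C.t = α ∨ Q C.t = β → Q c • a - c ∉ mI Q ^ 2) →
      (Nm C (E a c β)).eval α ≠ 0)
    (h_top : ∀ {m : ℕ}, 1 ≤ m → ∀ {a c : A}, a ∈ C.V (m - 1) → c ∈ C.V m → ∀ β : Qb,
      (Nm C (E a c β)).coeff (C.d * (m - 1)) = ((Nm C a).eval β * cw C m c ^ C.d) ^ C.d ∨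
      (Nm C (E a c β)).coeff (C.d * (m - 1)) = - ((Nm C a).eval β * cw C m c ^ C.d) ^ C.d)
    {m : ℕ} (hm : 4 * C.d + 2 * C.g + 2 ≤ m) :
    ∃ (S : Finset (A × A)) (γ : MConst), (∀ p ∈ S, p.1 ∈ C.V (m - 1) ∧ p.2 ∈ C.V m) ∧
      ∀ (v : Pl) (α β : Qb), ∃ p ∈ S,
        (mx 𝔳 v α * mx 𝔳 v β) ^ (C.d * (m - 1)) ≤
          Real.exp (γ.c v) * 𝔳.av v ((Nm C (E p.1 p.2 β)).eval α) := by
  have hm1 : 1 ≤ m := by omega
  have hm0 : 0 < m := hm1
  have hd : 0 < C.d := d_pos C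
  set D : ℕ := C.d * (m - 1) with hD
  -- the family
  let ι : Type := {p : A × A // p.1 ∈ C.V (m - 1) ∧ p.2 ∈ C.V m}
  let g : ι → Fin (D + 1) → Fin (D + 1) → Qb := fun p => (h_ev2 hm1 p.2.1 p.2.2).choose
  have hgs : ∀ (p : ι) (i j), g p i j = g p j i := fun p => (h_ev2 hm1 p.2.1 p.2.2).choose_spec.1
  have hge : ∀ (p : ι) (α β : Qb), ∑ i, ∑ j, g p i j * α ^ (i : ℕ) * β ^ (j : ℕ) =
      (Nm C (E p.1.1 p.1.2 β)).eval α := fun p => (h_ev2 hm1 p.2.1 p.2.2).choose_spec.2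
  -- the top coefficient in the first variable
  have htop : ∀ (p : ι) (β : Qb), ∑ j, g p (Fin.last D) j * β ^ (j : ℕ) =
      (Nm C (E p.1.1 p.1.2 β)).coeff D := fun p β =>
    coeff_of_eval (g p) β _ (fun α => hge p α β) (Fin.last D)
  have h1 : ∀ α β : Qb, ∃ k, ∑ i, ∑ j, g k i j * α ^ (i : ℕ) * β ^ (j : ℕ) ≠ 0 := by
    intro α β
    have hcard : ((Fib C α + Fib C β).toFinset).card ≤ 2 * C.d := by
      refine (Multiset.toFinset_card_le _).trans ?_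
      rw [Multiset.card_add, card_Fib, card_Fib, two_mul]
    have hmem : ∀ Q : Pt A, Q C.t = α ∨ Q C.t = β → Q ∈ (Fib C α + Fib C β).toFinset := by
      intro Q hQ
      rw [Multiset.mem_toFinset, Multiset.mem_add, mem_Fib, mem_Fib]
      exact hQ
    obtain ⟨a, c, hwa, hwc, ha1, hsep, hsq⟩ :=
      good_pencil C (Fib C α + Fib C β).toFinset (m := m) (by omega)
    refine ⟨⟨(a, c), (mem_V_iff C _ _).2 hwa.le, (mem_V_iff C _ _).2 hwc.le⟩, ?_⟩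
    rw [hge]
    exact h_ne α β (fun Q hQ => ha1 Q (hmem Q hQ))
      (fun P Q hP hQ hPQ => hsep P (hmem P hP) Q (hmem Q hQ) hPQ)
      (fun Q hQ => hsq Q (hmem Q hQ))
  have h2 : ∀ β : Qb, ∃ k, ∑ j, g k (Fin.last D) j * β ^ (j : ℕ) ≠ 0 := by
    intro β
    have hcard : ((Fib C β).toFinset).card ≤ C.d := by
      refine (Multiset.toFinset_card_le _).trans ?_
      rw [card_Fib]
    obtain ⟨a, c, hwa, hwc, ha1, -, -⟩ := good_pencil C (Fib C β).toFinset (m := m) (by omega)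
    have haV : a ∈ C.V (m - 1) := (mem_V_iff C _ _).2 hwa.le
    have hcV : c ∈ C.V m := (mem_V_iff C _ _).2 hwc.le
    refine ⟨⟨(a, c), haV, hcV⟩, ?_⟩
    rw [htop]
    have hN : (Nm C a).eval β = 1 := eval_Nm_eq_one C fun Q hQ =>
      ha1 Q (by rw [Multiset.mem_toFinset, mem_Fib]; exact hQ)
    have hne : ((Nm C a).eval β * cw C m c ^ C.d) ^ C.d ≠ 0 := by
      rw [hN, one_mul]
      exact pow_ne_zero _ (pow_ne_zero _ (cw_ne_zero C hm0 hwc))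
    rcases h_top hm1 haV hcV β with h | h
    · rw [h]; exact hne
    · rw [h]; exact neg_ne_zero.2 hne
  have h3 : ∀ α : Qb, ∃ k, ∑ i, g k i (Fin.last D) * α ^ (i : ℕ) ≠ 0 := by
    intro α
    obtain ⟨k, hk⟩ := h2 α
    refine ⟨k, ?_⟩
    intro h
    apply hk
    rw [← h]
    exact Finset.sum_congr rfl fun i _ => by rw [hgs]
  have h4 : ∃ k, g k (Fin.last D) (Fin.last D) ≠ 0 := by
    obtain ⟨a, c, hwa, hwc, -, -, -⟩ := good_pencil C (∅ : Finset (Pt A)) (m := m)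
      (by rw [Finset.card_empty]; omega)
    have haV : a ∈ C.V (m - 1) := (mem_V_iff C _ _).2 hwa.le
    have hcV : c ∈ C.V m := (mem_V_iff C _ _).2 hwc.le
    have ha0 : a ≠ 0 := ne_zero_of_wt C (n := m - 1) (by omega) hwa
    refine ⟨⟨(a, c), haV, hcV⟩, ?_⟩
    set k : ι := ⟨(a, c), haV, hcV⟩ with hk
    set q : Qb[X] := (Nm C a * Polynomial.C (cw C m c ^ C.d)) ^ C.d with hq
    have hcw : cw C m c ^ C.d ≠ 0 := pow_ne_zero _ (cw_ne_zero C hm0 hwc)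
    have hNa : Nm C a ≠ 0 := by
      intro h
      have h1 := Cw.natDegree_Nm C ha0
      rw [h, natDegree_zero, hwa] at h1
      omega
    have hqdeg : q.natDegree = D := by
      rw [hq, natDegree_pow, natDegree_mul_C hcw, Cw.natDegree_Nm C ha0, hwa]
    have hdeg : (pol (g k (Fin.last D))).natDegree = D := by
      refine (natDegree_eq_of_eval _ q fun β => ?_).trans hqdeg
      rw [eval_pol, htop, hq, eval_pow, eval_mul, eval_C]
      exact h_top hm1 haV hcV β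
    have hD0 : 0 < D := Nat.mul_pos hd (by omega)
    have hp0 : pol (g k (Fin.last D)) ≠ 0 := by
      intro h
      rw [h, natDegree_zero] at hdeg
      omega
    have := leadingCoeff_ne_zero.2 hp0
    rw [leadingCoeff, hdeg] at this
    have h5 := coeff_pol (g k (Fin.last D)) (Fin.last D)
    rw [Fin.val_last] at h5
    rwa [h5] at this
  obtain ⟨S, γ, hS⟩ := h_biproj D g h1 h2 h3 h4
  refine ⟨S.image Subtype.val, γ, ?_, fun v α β => ?_⟩
  · intro p hp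
    obtain ⟨k, -, rfl⟩ := Finset.mem_image.1 hp
    exact k.2
  · obtain ⟨k, hk, hle⟩ := hS v α β
    refine ⟨k.1, Finset.mem_image_of_mem _ hk, ?_⟩
    rwa [hge] at hle

/-- (X1) cross fibres, abstract form. -/
theorem cross_fibre_lower_of (E : A → A → Qb → A)
    (h_family : ∀ {m : ℕ}, 4 * C.d + 2 * C.g + 2 ≤ m →
      ∃ (S : Finset (A × A)) (γ : MConst), (∀ p ∈ S, p.1 ∈ C.V (m - 1) ∧ p.2 ∈ C.V m) ∧
        ∀ (v : Pl) (α β : Qb), ∃ p ∈ S,
          (mx 𝔳 v α * mx 𝔳 v β) ^ (C.d * (m - 1)) ≤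
            Real.exp (γ.c v) * 𝔳.av v ((Nm C (E p.1 p.2 β)).eval α))
    (h_prod : ∀ (a c : A) (α β : Qb), (β - α) ^ C.d * (Nm C (E a c β)).eval α =
      ((Fib C α).map fun P => ((Fib C β).map fun Q => P a * Q c - P c * Q a).prod).prod) :
    ∃ m₀ : ℕ, ∀ m : ℕ, m₀ ≤ m →
    ∃ γ : MConst, ∀ (v : Pl) (α α' : Qb), α ≠ α' → ∀ F F' : Finset (Pt A),
      (∀ P, P ∈ F ↔ P C.t = α) → (∀ P, P ∈ F' ↔ P C.t = α') → F.card = C.d → F'.card = C.d →
      C.d * Real.log (𝔳.av v (α - α')) +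
        ((C.d : ℝ) * ((m : ℝ) - 1)) * (Real.log (mx 𝔳 v α) + Real.log (mx 𝔳 v α')) ≤
      ∑ P ∈ F, ∑ Q ∈ F', Real.log (C.w2 𝔳 m v P Q) + γ.c v := by
  refine ⟨4 * C.d + 2 * C.g + 2, fun m hm => ?_⟩
  obtain ⟨S, γ₀, hSV, hS⟩ := h_family hm
  have hγ : ∀ p : A × A, ∃ γ : MConst, p ∈ S → ∀ (v : Pl) (P Q : Pt A),
      𝔳.av v (P p.1 * Q p.2 - P p.2 * Q p.1) ≤ Real.exp (γ.c v) * C.w2 𝔳 m v P Q := by
    intro p
    by_cases hp : p ∈ S
    · obtain ⟨γ, h⟩ := av_pencil_le 𝔳 C m (V_mono C (Nat.sub_le m 1) (hSV p hp).1) (hSV p hp).2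
      exact ⟨γ, fun _ => h⟩
    · exact ⟨0, fun h => absurd h hp⟩
  choose γp hγp using hγ
  refine ⟨γ₀ + (C.d * C.d) • ∑ p ∈ S, γp p, fun v α α' hne F F' hF hF' hc hc' => ?_⟩
  obtain ⟨p, hp, hle⟩ := hS v α α'
  set G : Qb := (Nm C (E p.1 p.2 α')).eval α with hG
  have hw2 : ∀ P ∈ F, ∀ Q ∈ F', 0 < C.w2 𝔳 m v P Q := by
    intro P hP Q hQ
    refine w2_pos 𝔳 C v (by omega) ?_
    rintro rfl
    exact hne (((hF P).1 hP).symm.trans ((hF' P).1 hQ))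
  have hprod : (α' - α) ^ C.d * G = ∏ P ∈ F, ∏ Q ∈ F', (P p.1 * Q p.2 - P p.2 * Q p.1) := by
    rw [hG, h_prod, Fib_eq_val C F hF hc, Fib_eq_val C F' hF' hc']
    rfl
  have habs : 𝔳.av v (α - α') ^ C.d * 𝔳.av v G =
      ∏ P ∈ F, ∏ Q ∈ F', 𝔳.av v (P p.1 * Q p.2 - P p.2 * Q p.1) := by
    rw [(𝔳.av v).map_sub α α', ← map_pow, ← map_mul, hprod, map_prod]
    exact Finset.prod_congr rfl fun P _ => map_prod _ _ _
  have hav : 0 < 𝔳.av v (α - α') := (𝔳.av v).pos (sub_ne_zero.2 hne)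
  have hmm : 0 < mx 𝔳 v α * mx 𝔳 v α' := mul_pos (mx_pos 𝔳 v α) (mx_pos 𝔳 v α')
  -- the multiplicative inequality
  have hmain : 𝔳.av v (α - α') ^ C.d * (mx 𝔳 v α * mx 𝔳 v α') ^ (C.d * (m - 1)) ≤
      Real.exp (γ₀.c v) * ∏ P ∈ F, ∏ Q ∈ F', (Real.exp ((γp p).c v) * C.w2 𝔳 m v P Q) := by
    calc 𝔳.av v (α - α') ^ C.d * (mx 𝔳 v α * mx 𝔳 v α') ^ (C.d * (m - 1))
        ≤ 𝔳.av v (α - α') ^ C.d * (Real.exp (γ₀.c v) * 𝔳.av v G) :=
          mul_le_mul_of_nonneg_left hle (pow_pos hav _).le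
      _ = Real.exp (γ₀.c v) * (𝔳.av v (α - α') ^ C.d * 𝔳.av v G) := by ring
      _ = Real.exp (γ₀.c v) * ∏ P ∈ F, ∏ Q ∈ F', 𝔳.av v (P p.1 * Q p.2 - P p.2 * Q p.1) := by
          rw [habs]
      _ ≤ _ := by
          refine mul_le_mul_of_nonneg_left ?_ (Real.exp_pos _).le
          refine Finset.prod_le_prod (fun P _ => Finset.prod_nonneg fun Q _ => (𝔳.av v).nonneg _)
            fun P _ => ?_
          exact Finset.prod_le_prod (fun Q _ => (𝔳.av v).nonneg _) fun Q _ => hγp p hp v P Q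
  have hlog := Real.log_le_log (mul_pos (pow_pos hav _) (pow_pos hmm _)) hmain
  have hpos2 : ∀ P ∈ F, ∀ Q ∈ F', Real.exp ((γp p).c v) * C.w2 𝔳 m v P Q ≠ 0 :=
    fun P hP Q hQ => (mul_pos (Real.exp_pos _) (hw2 P hP Q hQ)).ne'
  have hpos1 : ∀ P ∈ F, ∏ Q ∈ F', (Real.exp ((γp p).c v) * C.w2 𝔳 m v P Q) ≠ 0 :=
    fun P hP => Finset.prod_ne_zero_iff.2 (hpos2 P hP)
  rw [Real.log_mul (pow_pos hav _).ne' (pow_pos hmm _).ne', Real.log_pow, Real.log_pow,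
    Real.log_mul (mx_pos 𝔳 v α).ne' (mx_pos 𝔳 v α').ne',
    Real.log_mul (Real.exp_pos _).ne' (Finset.prod_ne_zero_iff.2 hpos1), Real.log_exp,
    Real.log_prod hpos1] at hlog
  have hsum : ∑ P ∈ F, Real.log (∏ Q ∈ F', (Real.exp ((γp p).c v) * C.w2 𝔳 m v P Q)) =
      (C.d * C.d : ℕ) * (γp p).c v + ∑ P ∈ F, ∑ Q ∈ F', Real.log (C.w2 𝔳 m v P Q) := by
    have h1 : ∀ P ∈ F, Real.log (∏ Q ∈ F', (Real.exp ((γp p).c v) * C.w2 𝔳 m v P Q)) =
        C.d * (γp p).c v + ∑ Q ∈ F', Real.log (C.w2 𝔳 m v P Q) := by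
      intro P hP
      rw [Real.log_prod (hpos2 P hP)]
      have h2 : ∀ Q ∈ F', Real.log (Real.exp ((γp p).c v) * C.w2 𝔳 m v P Q) =
          (γp p).c v + Real.log (C.w2 𝔳 m v P Q) := fun Q hQ => by
        rw [Real.log_mul (Real.exp_pos _).ne' (hw2 P hP Q hQ).ne', Real.log_exp]
      rw [Finset.sum_congr rfl h2, Finset.sum_add_distrib, Finset.sum_const, hc', nsmul_eq_mul]
    rw [Finset.sum_congr rfl h1, Finset.sum_add_distrib, Finset.sum_const, hc, nsmul_eq_mul]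
    push_cast
    ring
  rw [hsum] at hlog
  have hcast : ((C.d * (m - 1) : ℕ) : ℝ) = (C.d : ℝ) * ((m : ℝ) - 1) := by
    rw [Nat.cast_mul, Nat.cast_sub (by omega : 1 ≤ m), Nat.cast_one]
  rw [hcast] at hlog
  have hγle : (γp p).c v ≤ (∑ p ∈ S, γp p).c v := MConst.le_sum_c v S γp hp
  rw [MConst.add_c, MConst.nsmul_c]
  have hdd : (0 : ℝ) ≤ ((C.d * C.d : ℕ) : ℝ) := Nat.cast_nonneg _
  have := mul_le_mul_of_nonneg_left hγle hdd
  linarith

end Fermat.Agent.S17.H
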